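import Fermat.Agent.S20.Final
import Fermat.Agent.Lib.RR.ResidFinal
import Fermat.Agent.Lib.RR.ResidC
import Fermat.Agent.Lib.RR.ResidU

/-!
# `genusFormula N ≤ dim S₂(Γ₀(N))` (unconditional)
-/

set_option autoImplicit false

namespace Fermat.Agent.S20

open Fermat.Agent.S24

/-- **The lower bound** `genusFormula N ≤ dim S₂(Γ₀(N))`. -/
theorem FA_S20_lower (N : ℕ) [NeZero N] :
    ModularCurve.genusFormula N
      ≤ (Module.finrank ℂ (CuspForm (CongruenceSubgroup.Gamma0 N) 2) : ℚ) := by
  rcases Nat.lt_or_ge N 2 with hN | hN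
  · have hN1 : N = 1 := by
      have := NeZero.ne N
      omega
    subst hN1
    rw [FA_S24_genusFormula_one]
    positivity
  · have hF := FA_S20_isFF N hN
    exact FA_S20_ge_of_residues N
      (FA_RR.Resid.residues_of hF
        (fun v _ _ _ ht hc => FA_RR.Resid.resv_unit hF v ht hc)
        (fun f g => FA_RR.Resid.resv_sum hF f g))

end Fermat.Agent.S20
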