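import Mathlib
import Fermat.Agent.Lib.Mero6
import Fermat.Agent.Lib.RR.OrdDiff
import Fermat.Agent.S24.CD
import Fermat.Agent.S24.DPlace

/-!
# Item 78 (S20 bridge), part 1: the map `Θ : Ω[F⁄ℂ] → 𝓜` and holomorphy of regular differentials

`F` is an intermediate field of `𝓜 / ℂ` (`𝓜 = FA_Mero_Field`) containing `j`.
`Θ (c • d x) = c · D x`.  If `ω` is regular at all places of `F` then `Θ ω` is holomorphic on `ℍ`.
-/

set_option autoImplicit false
set_option linter.style.haveILetI false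

noncomputable section

open UpperHalfPlane hiding I
open Complex WithZero Filter AlgebraicCurve KaehlerDifferential
open scoped MatrixGroups Manifold Topology Real ModularForm

namespace Fermat.Agent.S20

open Fermat.Agent.Mero Fermat.Agent.S24

local notation "ι" => algebraMap FA_Mero_Hol FA_Mero_Field

/-! ### Local form of a regular differential at the place of a valuation -/

section local_form

variable {K F : Type*} [Field K] [Field F] [Algebra K F]

/-- A regular differential is `c • d t` with `ν c ≥ 0` and `ν t > 0`, for every `ℤ`-valued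
valuation `ν` of `F / K`. -/
theorem FA_S20_exists_local [IsAlgClosed K] [CharZero K] (hF : FA_RR_IsFF K F) {ν : F → ℤ}
    (hν : FA_S24_IsVal K ν) (ω : Ω[F⁄K]) (hω : ω ∈ FA_RR_regularDifferentials K F) :
    ∃ c t : F, ω = c • D K F t ∧ (c = 0 ∨ 0 ≤ ν c) ∧ 0 < ν t := by
  obtain ⟨w, m, hm, hνw, -⟩ := hν.exists_place
  haveI := FA_RR.dCoordGenerates hF w
  obtain ⟨t, ht1, htd⟩ := FA_RR.dCoord_spec w
  have ht0 : t ≠ 0 := by
    rintro rfl
    rw [w.ord_zero] at ht1
    exact zero_ne_one ht1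
  have hνt : 0 < ν t := by
    rw [hνw t ht0, ht1, mul_one]
    exact hm
  refine ⟨w.differentialCoeff ω, t, ?_, ?_, hνt⟩
  · rw [← htd, w.differentialCoeff_smul_dCoord]
  · rcases hω with rfl | hω
    · left
      haveI := FA_RR.nontrivial_kaehler hF
      exact w.differentialCoeff_zero
    · by_cases hc : w.differentialCoeff ω = 0
      · exact Or.inl hc
      · right
        rw [hνw _ hc]
        exact mul_nonneg hm.le (hω w)

end local_form

/-! ### The map `Θ` -/

section theta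

variable (F : Type*) [Field F] [Algebra ℂ F] [Algebra F FA_Mero_Field]
  [IsScalarTower ℂ F FA_Mero_Field]

local notation "τ" => algebraMap F FA_Mero_Field

/-- The derivation `x ↦ D x` from `F` to `𝓜`. -/
def FA_S20_der : Derivation ℂ F FA_Mero_Field := FA_Mero_Der.compAlgebraMap F

theorem FA_S20_der_apply (x : F) : FA_S20_der F x = FA_Mero_Der (τ x) := rfl

/-- `Θ : Ω[F⁄ℂ] → 𝓜`, `c • d x ↦ c · D x`. -/
def FA_S20_Theta : Ω[F⁄ℂ] →ₗ[F] FA_Mero_Field := (FA_S20_der F).liftKaehlerDifferential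

theorem FA_S20_Theta_D (x : F) :
    FA_S20_Theta F (D ℂ F x) = FA_Mero_Der (τ x) := by
  unfold FA_S20_Theta
  rw [Derivation.liftKaehlerDifferential_comp_D]
  rfl

theorem FA_S20_Theta_smul_D (c x : F) :
    FA_S20_Theta F (c • D ℂ F x) = τ c * FA_Mero_Der (τ x) := by
  rw [map_smul, FA_S20_Theta_D, Algebra.smul_def]

omit [Algebra ℂ F] [IsScalarTower ℂ F FA_Mero_Field] in
theorem FA_S20_tau_ne_zero {a : F} (ha : a ≠ 0) : τ a ≠ 0 :=
  fun h => ha ((map_eq_zero (algebraMap F FA_Mero_Field)).mp h)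

/-- The valuation of `F` at a point `z₀` of the upper half plane. -/
theorem FA_S20_isVal_point (hj : ∃ x : F, τ x = ι FA_S24_jHol) (z₀ : ℍ) :
    FA_S24_IsVal ℂ (fun a : F => FA_Mero_ord z₀ (τ a)) := by
  refine ⟨?_, ?_, ?_, ?_⟩
  · intro a b ha hb
    show FA_Mero_ord z₀ (τ (a * b)) = _
    rw [map_mul]
    exact FA_Mero_ord_mul _ (FA_S20_tau_ne_zero F ha) (FA_S20_tau_ne_zero F hb)
  · intro a b ha hb hab
    show min _ _ ≤ FA_Mero_ord z₀ (τ (a + b))
    have hab' := FA_S20_tau_ne_zero F hab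
    rw [map_add] at hab' ⊢
    exact FA_Mero_ord_add _ hab' (FA_S20_tau_ne_zero F ha) (FA_S20_tau_ne_zero F hb)
  · intro c _
    show FA_Mero_ord z₀ (τ (algebraMap ℂ F c)) = 0
    rw [← IsScalarTower.algebraMap_apply]
    exact FA_Mero_ord_algebraMap z₀ c
  · obtain ⟨x, hx⟩ := hj
    have hval : τ (x - algebraMap ℂ F (FA_S24_j z₀))
        = ι (FA_S24_jHol - algebraMap ℂ FA_Mero_Hol (FA_S24_j z₀)) := by
      rw [map_sub, map_sub, hx, ← IsScalarTower.algebraMap_apply,
        ← IsScalarTower.algebraMap_apply]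
    have hord : FA_Mero_ord z₀ (τ (x - algebraMap ℂ F (FA_S24_j z₀)))
        = (FA_S24_eJ (FA_S24_j z₀) : ℤ) := by
      rw [hval, FA_Mero_ord_algebraMap_hol, FA_S24_ordHol_j_sub]
    have hpos : 0 < FA_S24_eJ (FA_S24_j z₀) := by
      unfold FA_S24_eJ
      split_ifs <;> norm_num
    refine ⟨x - algebraMap ℂ F (FA_S24_j z₀), ?_, ?_⟩
    · intro h
      rw [h, map_zero] at hval
      exact FA_Mero_algebraMap_ne_zero (FA_S24_jHol_sub_ne_zero _) hval.symm
    · show FA_Mero_ord z₀ (τ (x - algebraMap ℂ F (FA_S24_j z₀))) ≠ 0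
      rw [hord]
      exact_mod_cast hpos.ne'

/-- If `ω` is regular then `Θ ω` has no pole at `z₀`. -/
theorem FA_S20_Theta_val_le (hF : FA_RR_IsFF ℂ F) (hj : ∃ x : F, τ x = ι FA_S24_jHol)
    (ω : Ω[F⁄ℂ]) (hω : ω ∈ FA_RR_regularDifferentials ℂ F) (z₀ : ℍ) :
    FA_Mero_val z₀ (FA_S20_Theta F ω) ≤ 1 := by
  obtain ⟨c, t, rfl, hc, ht⟩ := FA_S20_exists_local hF (FA_S20_isVal_point F hj z₀) ω hω
  rw [FA_S20_Theta_smul_D, map_mul]
  have ht' : 0 < FA_Mero_ord z₀ (τ t) := ht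
  have ht0 : τ t ≠ 0 := by
    intro h
    rw [h, FA_Mero_ord_zero] at ht'
    exact lt_irrefl _ ht'
  have h1 : FA_Mero_val z₀ (FA_Mero_Der (τ t)) ≤ 1 := by
    refine (FA_Mero_val_Der_le z₀ _).trans ?_
    rw [FA_Mero_val_eq_exp z₀ ht0, ← WithZero.exp_add, ← WithZero.exp_zero, WithZero.exp_le_exp]
    omega
  have h2 : FA_Mero_val z₀ (τ c) ≤ 1 := by
    rw [FA_Mero_val_le_one_iff]
    rcases hc with rfl | hc
    · left; exact map_zero _
    · right; exact hc
  calc FA_Mero_val z₀ (τ c) * FA_Mero_val z₀ (FA_Mero_Der (τ t))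
      ≤ 1 * 1 := mul_le_mul' h2 h1
    _ = 1 := one_mul 1

/-- **Holomorphy of regular differentials**: `Θ ω = ι f` with `f` holomorphic on `ℍ`. -/
theorem FA_S20_Theta_hol (hF : FA_RR_IsFF ℂ F) (hj : ∃ x : F, τ x = ι FA_S24_jHol)
    (ω : Ω[F⁄ℂ]) (hω : ω ∈ FA_RR_regularDifferentials ℂ F) :
    ∃ f : FA_Mero_Hol, ι f = FA_S20_Theta F ω :=
  FA_Mero_exists_hol_of_val_le_one _ (FA_S20_Theta_val_le F hF hj ω hω)

end theta

end Fermat.Agent.S20
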