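import Mathlib
import Fermat.Agent.S20.Theta
import Fermat.Agent.S24.DQ1

/-!
# Item 78 (S20 bridge), part 2: regular differentials give cusp forms

`F / ℂ` a function field inside `𝓜 = FA_Mero_Field`, containing `j`, fixed by `Γ₀(N)`, all of
whose `SL(2, ℤ)`-translates are `N`-good at `∞`.  Then for every `ℂ`-subspace `R` of regular
differentials, `dim R ≤ dim S₂(Γ₀(N))`.
-/

set_option autoImplicit false
set_option linter.style.haveILetI false
set_option linter.unusedSectionVars false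

noncomputable section

open UpperHalfPlane hiding I
open Complex WithZero Filter AlgebraicCurve KaehlerDifferential
open scoped MatrixGroups Manifold Topology Real ModularForm

namespace Fermat.Agent.S20

open Fermat.Agent.Mero Fermat.Agent.S24

local notation "ι" => algebraMap FA_Mero_Hol FA_Mero_Field

/-- The three facts about the cusp `∞` needed by the bridge (leaf `Cusp`). -/
def FA_S20_Target_Cusp (N : ℕ) [NeZero N] : Prop :=
  (∀ x : FA_Mero_Field, x ∈ FA_S24_good N → FA_Mero_Der x ∈ FA_S24_good N) ∧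
  (∀ x : FA_Mero_Field, x ∈ FA_S24_good N → 0 < (FA_S24_Qinf N x).order →
      FA_Mero_Der x = 0 ∨ 0 < (FA_S24_Qinf N (FA_Mero_Der x)).order) ∧
  (∀ f : FA_Mero_Hol, ι f ∈ FA_S24_good N → 0 < (FA_S24_Qinf N (ι f)).order →
      IsZeroAtImInfty (f : ℍ → ℂ))

/-! ### Construction of a cusp form -/

/-- A holomorphic function which is weight-2 invariant under `Γ₀(N)` and all of whose
`SL(2, ℤ)`-translates vanish at `i∞` is a cusp form. -/
def FA_S20_mkCuspForm (N : ℕ) [NeZero N] (f : FA_Mero_Hol)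
    (hinv : ∀ γ ∈ CongruenceSubgroup.Gamma0 N, FA_Mero_slashHol γ f = f)
    (hcusp : ∀ γ : SL(2, ℤ), IsZeroAtImInfty ((FA_Mero_slashHol γ f : FA_Mero_Hol) : ℍ → ℂ)) :
    CuspForm (CongruenceSubgroup.Gamma0 N) 2 where
  toFun := f
  slash_action_eq' := by
    rintro _ ⟨γ, hγ, rfl⟩
    exact congrArg Subtype.val (hinv γ hγ)
  holo' := f.2
  zero_at_cusps' := by
    intro c hc
    rw [Subgroup.IsArithmetic.isCusp_iff_isCusp_SL2Z] at hc
    rw [OnePoint.isZeroAt_iff_forall_SL2Z hc]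
    intro γ _
    exact hcusp γ

theorem FA_S20_mkCuspForm_coe (N : ℕ) [NeZero N] (f : FA_Mero_Hol)
    (hinv : ∀ γ ∈ CongruenceSubgroup.Gamma0 N, FA_Mero_slashHol γ f = f)
    (hcusp : ∀ γ : SL(2, ℤ), IsZeroAtImInfty ((FA_Mero_slashHol γ f : FA_Mero_Hol) : ℍ → ℂ)) :
    ((FA_S20_mkCuspForm N f hinv hcusp : CuspForm (CongruenceSubgroup.Gamma0 N) 2) : ℍ → ℂ)
      = (f : ℍ → ℂ) := rfl

/-- The holomorphic function underlying a cusp form. -/
def FA_S20_toHol (N : ℕ) : CuspForm (CongruenceSubgroup.Gamma0 N) 2 →ₗ[ℂ] FA_Mero_Hol where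
  toFun g := ⟨(g : ℍ → ℂ), CuspFormClass.holo g⟩
  map_add' _ _ := rfl
  map_smul' _ _ := rfl

theorem FA_S20_toHol_injective (N : ℕ) : Function.Injective (FA_S20_toHol N) := by
  intro g h hgh
  apply DFunLike.coe_injective
  exact congrArg Subtype.val hgh

/-- The embedding of the cusp forms into the meromorphic functions. -/
def FA_S20_kappa (N : ℕ) : CuspForm (CongruenceSubgroup.Gamma0 N) 2 →ₗ[ℂ] FA_Mero_Field :=
  (Algebra.linearMap FA_Mero_Hol FA_Mero_Field |>.restrictScalars ℂ).comp (FA_S20_toHol N)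

theorem FA_S20_kappa_apply (N : ℕ) (g : CuspForm (CongruenceSubgroup.Gamma0 N) 2) :
    FA_S20_kappa N g = ι (FA_S20_toHol N g) := rfl

theorem FA_S20_kappa_injective (N : ℕ) : Function.Injective (FA_S20_kappa N) := by
  intro g h hgh
  exact FA_S20_toHol_injective N (FA_Mero_algebraMap_injective hgh)

section bridge

variable (N : ℕ) [NeZero N]
variable (F : Type*) [Field F] [Algebra ℂ F] [Algebra F FA_Mero_Field]
  [IsScalarTower ℂ F FA_Mero_Field]

local notation "τ" => algebraMap F FA_Mero_Field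

/-- The valuation of `F` at the cusp `γ ∞`. -/
theorem FA_S20_isVal_cusp (hj : ∃ x : F, τ x = ι FA_S24_jHol)
    (hjord : (FA_S24_Qinf N (ι FA_S24_jHol)).order ≠ 0)
    (hgood : ∀ (γ : SL(2, ℤ)) (a : F), γ • τ a ∈ FA_S24_good N) (γ : SL(2, ℤ)) :
    FA_S24_IsVal ℂ (fun a : F => (FA_S24_Qinf N (γ⁻¹ • τ a)).order) := by
  have hne : ∀ {a : F}, a ≠ 0 → γ⁻¹ • τ a ≠ 0 := fun ha =>
    FA_Mero_smul_ne_zero _ (FA_S20_tau_ne_zero F ha)
  refine ⟨?_, ?_, ?_, ?_⟩
  · intro a b ha hb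
    show (FA_S24_Qinf N (γ⁻¹ • τ (a * b))).order = _
    rw [map_mul, smul_mul', FA_S24_Qinf_mul (hgood _ a) (hgood _ b),
      HahnSeries.order_mul (FA_S24_Qinf_ne_zero (hgood _ a) (hne ha))
        (FA_S24_Qinf_ne_zero (hgood _ b) (hne hb))]
  · intro a b ha hb hab
    show min _ _ ≤ (FA_S24_Qinf N (γ⁻¹ • τ (a + b))).order
    have h1 := FA_S24_Qinf_ne_zero (hgood γ⁻¹ (a + b)) (hne hab)
    rw [map_add, smul_add, FA_S24_Qinf_add (hgood _ a) (hgood _ b)] at h1 ⊢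
    exact HahnSeries.min_order_le_order_add h1
  · intro c _
    show (FA_S24_Qinf N (γ⁻¹ • τ (algebraMap ℂ F c))).order = 0
    rw [← IsScalarTower.algebraMap_apply, FA_Mero_smul_algebraMap_complex, FA_S24_Qinf_const,
      HahnSeries.order_C]
  · obtain ⟨x, hx⟩ := hj
    refine ⟨x, ?_, ?_⟩
    · rintro rfl
      rw [map_zero] at hx
      have h0 : FA_S24_jHol ≠ 0 := by
        have := FA_S24_jHol_sub_ne_zero 0
        simpa using this
      exact FA_Mero_algebraMap_ne_zero h0 hx.symm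
    · show (FA_S24_Qinf N (γ⁻¹ • τ x)).order ≠ 0
      rw [hx, FA_Mero_smul_algebraMap, FA_S24_jHol_smul]
      exact hjord

/-- Membership in the regular differentials gives a local form for any valuation. -/
theorem FA_S20_slash_eq (ω : Ω[F⁄ℂ]) (f : FA_Mero_Hol) (hf : ι f = FA_S20_Theta F ω)
    (c t : F) (hω : ω = c • D ℂ F t) (γ : SL(2, ℤ)) :
    ι (FA_Mero_slashHol γ f) = (γ⁻¹ • τ c) * FA_Mero_Der (γ⁻¹ • τ t) := by
  apply FA_Mero_algebraMap_slashHol_of_eq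
  rw [hf, hω, FA_S20_Theta_smul_D]

/-- Weight 2 invariance under `Γ₀(N)`. -/
theorem FA_S20_invariant (hF : FA_RR_IsFF ℂ F) (hj : ∃ x : F, τ x = ι FA_S24_jHol)
    (hfix : ∀ γ ∈ CongruenceSubgroup.Gamma0 N, ∀ a : F, γ • τ a = τ a)
    (ω : Ω[F⁄ℂ]) (hω : ω ∈ FA_RR_regularDifferentials ℂ F)
    (f : FA_Mero_Hol) (hf : ι f = FA_S20_Theta F ω)
    (γ : SL(2, ℤ)) (hγ : γ ∈ CongruenceSubgroup.Gamma0 N) :
    FA_Mero_slashHol γ f = f := by
  obtain ⟨c, t, hct, -, -⟩ :=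
    FA_S20_exists_local hF (FA_S20_isVal_point F hj UpperHalfPlane.I) ω hω
  apply FA_Mero_algebraMap_injective
  have hγ' : γ⁻¹ ∈ CongruenceSubgroup.Gamma0 N := inv_mem hγ
  rw [FA_S20_slash_eq F ω f hf c t hct γ, hfix _ hγ', hfix _ hγ', hf, hct, FA_S20_Theta_smul_D]

/-- Vanishing at all cusps. -/
theorem FA_S20_cusp (hF : FA_RR_IsFF ℂ F) (hj : ∃ x : F, τ x = ι FA_S24_jHol)
    (hjord : (FA_S24_Qinf N (ι FA_S24_jHol)).order ≠ 0)
    (hgood : ∀ (γ : SL(2, ℤ)) (a : F), γ • τ a ∈ FA_S24_good N)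
    (hCusp : FA_S20_Target_Cusp N)
    (ω : Ω[F⁄ℂ]) (hω : ω ∈ FA_RR_regularDifferentials ℂ F)
    (f : FA_Mero_Hol) (hf : ι f = FA_S20_Theta F ω) (γ : SL(2, ℤ)) :
    IsZeroAtImInfty ((FA_Mero_slashHol γ f : FA_Mero_Hol) : ℍ → ℂ) := by
  obtain ⟨hCa, hCb, hCc⟩ := hCusp
  obtain ⟨c, t, hct, hc, ht⟩ :=
    FA_S20_exists_local hF (FA_S20_isVal_cusp N F hj hjord hgood γ) ω hω
  have ht' : 0 < (FA_S24_Qinf N (γ⁻¹ • τ t)).order := ht
  have key := FA_S20_slash_eq F ω f hf c t hct γ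
  have hzero : ι (FA_Mero_slashHol γ f) = 0 → 
      IsZeroAtImInfty ((FA_Mero_slashHol γ f : FA_Mero_Hol) : ℍ → ℂ) := by
    intro h0
    have h1 : FA_Mero_slashHol γ f = 0 := FA_Mero_algebraMap_injective (by rw [h0, map_zero])
    rw [h1]
    exact Filter.zero_zeroAtFilter _
  by_cases hc0 : c = 0
  · apply hzero
    rw [key, hc0, map_zero, smul_zero, zero_mul]
  have hc' : 0 ≤ (FA_S24_Qinf N (γ⁻¹ • τ c)).order := by
    rcases hc with h | h
    · exact absurd h hc0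
    · exact h
  rcases hCb _ (hgood γ⁻¹ t) ht' with hD | hD
  · apply hzero
    rw [key, hD, mul_zero]
  have hDg := hCa _ (hgood γ⁻¹ t)
  have hcne : γ⁻¹ • τ c ≠ 0 := FA_Mero_smul_ne_zero _ (FA_S20_tau_ne_zero F hc0)
  have hDne : FA_Mero_Der (γ⁻¹ • τ t) ≠ 0 := by
    intro h
    rw [h] at hD
    have : FA_S24_Qinf N (0 : FA_Mero_Field) = 0 := by
      have := FA_S24_Qinf_const (N := N) 0
      simpa using this
    rw [this, HahnSeries.order_zero] at hD
    exact lt_irrefl _ hD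
  apply hCc
  · rw [key]
    exact mul_mem (hgood γ⁻¹ c) hDg
  · rw [key, FA_S24_Qinf_mul (hgood γ⁻¹ c) hDg,
      HahnSeries.order_mul (FA_S24_Qinf_ne_zero (hgood γ⁻¹ c) hcne)
        (FA_S24_Qinf_ne_zero hDg hDne)]
    omega

/-- `Θ` is injective. -/
theorem FA_S20_Theta_injective (hF : FA_RR_IsFF ℂ F) (hj : ∃ x : F, τ x = ι FA_S24_jHol) :
    Function.Injective (FA_S20_Theta F) := by
  obtain ⟨x, hx⟩ := hj
  have h1 : FA_S20_Theta F (D ℂ F x) ≠ 0 := by
    rw [FA_S20_Theta_D, hx, FA_Mero_Der_algebraMap]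
    exact FA_Mero_algebraMap_ne_zero FA_S24_DjHol_ne_zero
  have hD0 : D ℂ F x ≠ 0 := by
    intro h
    rw [h, map_zero] at h1
    exact h1 rfl
  have hrank := FA_RR.finrank_kaehler hF
  rw [injective_iff_map_eq_zero]
  intro ω hω
  obtain ⟨c, rfl⟩ := (finrank_eq_one_iff_of_nonzero' (D ℂ F x) hD0).mp hrank ω
  rw [map_smul, Algebra.smul_def, mul_eq_zero] at hω
  rcases hω with h | h
  · rw [(map_eq_zero (algebraMap F FA_Mero_Field)).mp h, zero_smul]
  · exact absurd h h1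

/-- **The bridge**: a space of regular differentials has dimension at most
`dim S₂(Γ₀(N))`. -/
theorem FA_S20_bridge (hF : FA_RR_IsFF ℂ F) (hj : ∃ x : F, τ x = ι FA_S24_jHol)
    (hjord : (FA_S24_Qinf N (ι FA_S24_jHol)).order ≠ 0)
    (hfix : ∀ γ ∈ CongruenceSubgroup.Gamma0 N, ∀ a : F, γ • τ a = τ a)
    (hgood : ∀ (γ : SL(2, ℤ)) (a : F), γ • τ a ∈ FA_S24_good N)
    (hCusp : FA_S20_Target_Cusp N)
    [FiniteDimensional ℂ (CuspForm (CongruenceSubgroup.Gamma0 N) 2)]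
    (R : Submodule ℂ Ω[F⁄ℂ]) (hR : (R : Set Ω[F⁄ℂ]) ⊆ FA_RR_regularDifferentials ℂ F) :
    Module.finrank ℂ R ≤ Module.finrank ℂ (CuspForm (CongruenceSubgroup.Gamma0 N) 2) := by
  set Θc : Ω[F⁄ℂ] →ₗ[ℂ] FA_Mero_Field := (FA_S20_Theta F).restrictScalars ℂ with hΘc
  have hΘinj : Function.Injective Θc := FA_S20_Theta_injective F hF hj
  have hle : R.map Θc ≤ LinearMap.range (FA_S20_kappa N) := by
    rintro _ ⟨ω, hωR, rfl⟩
    have hω := hR hωR
    obtain ⟨f, hf⟩ := FA_S20_Theta_hol F hF hj ω hω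
    refine ⟨FA_S20_mkCuspForm N f
      (fun γ hγ => FA_S20_invariant N F hF hj hfix ω hω f hf γ hγ)
      (fun γ => FA_S20_cusp N F hF hj hjord hgood hCusp ω hω f hf γ), ?_⟩
    rw [FA_S20_kappa_apply]
    exact hf
  calc Module.finrank ℂ R = Module.finrank ℂ (R.map Θc) :=
        (LinearEquiv.finrank_eq (Submodule.equivMapOfInjective Θc hΘinj R))
    _ ≤ Module.finrank ℂ (LinearMap.range (FA_S20_kappa N)) := Submodule.finrank_mono hle
    _ = Module.finrank ℂ (CuspForm (CongruenceSubgroup.Gamma0 N) 2) :=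
        LinearMap.finrank_range_of_inj (FA_S20_kappa_injective N)

end bridge

end Fermat.Agent.S20
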