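import Mathlib
import Fermat.Agent.Lib.Mero3
import Fermat.Agent.S24.DQ1
import Fermat.Agent.S24.DQ2
import Fermat.Agent.S24.DBDD
import Fermat.Agent.S24.DQE

/-!
# Item 78 (S20 bridge), leaf "Cusp": the derivation and the expansion at `∞`

* `FA_S20_Der_mem_good` : `Der` preserves the `N`-good functions;
* `FA_S20_order_Der_pos` : `Der` does not destroy a positive order at `∞`;
* `FA_S20_isZeroAtImInfty` : holomorphic + good + positive order at `∞` ⇒ zero at `i∞`.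
-/

set_option autoImplicit false

noncomputable section

open UpperHalfPlane hiding I
open Complex Filter Function Derivative
open scoped Manifold Topology Real Derivative

namespace Fermat.Agent.S20

open Fermat.Agent.Mero Fermat.Agent.S24

local notation "𝕢" => Function.Periodic.qParam
local notation "ι" => algebraMap FA_Mero_Hol FA_Mero_Field

variable {N : ℕ} [NeZero N]

/-- `D f = N⁻¹ · q · d/dq (cuspFunction)` for an `N`-periodic function. -/
theorem FA_S20_D_eq_q_mul_deriv (a : FA_S24_HolPlus N) (z : ℍ) :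
    D (a : ℍ → ℂ) z
      = (N : ℂ)⁻¹ * (𝕢 (N : ℝ) z * deriv (cuspFunction (N : ℝ) (a : ℍ → ℂ)) (𝕢 (N : ℝ) z)) := by
  have hN := FA_S24_Npos N
  have hNC : (N : ℂ) ≠ 0 := by exact_mod_cast (NeZero.ne N)
  have hper := FA_S24_HolPlus_per a
  have hfun : (a : ℍ → ℂ) ∘ ofComplex = cuspFunction (N : ℝ) (a : ℍ → ℂ) ∘ 𝕢 (N : ℝ) := by
    funext w
    exact (Function.Periodic.eq_cuspFunction hN.ne' hper w).symm
  have hq : ‖𝕢 (N : ℝ) (z : ℂ)‖ < 1 := Function.Periodic.norm_qParam_lt_one hN z.im_pos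
  have hF : DifferentiableAt ℂ (cuspFunction (N : ℝ) (a : ℍ → ℂ)) (𝕢 (N : ℝ) (z : ℂ)) :=
    differentiableAt_cuspFunction hN hper (FA_S24_HolPlus_mdiff a) (FA_S24_HolPlus_bdd a) hq
  have hqd : HasDerivAt (𝕢 (N : ℝ)) (2 * π * I / (N : ℂ) * 𝕢 (N : ℝ) (z : ℂ)) (z : ℂ) := by
    have h1 : HasDerivAt (fun w : ℂ => 2 * π * I * w / ((N : ℝ) : ℂ)) (2 * π * I / (N : ℂ))
        (z : ℂ) := by
      have := ((hasDerivAt_id (z : ℂ)).const_mul (2 * π * I)).div_const ((N : ℝ) : ℂ)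
      simpa using this
    have h2 := h1.cexp
    have h3 : (fun w : ℂ => cexp (2 * π * I * w / ((N : ℝ) : ℂ))) = 𝕢 (N : ℝ) := by
      funext w
      simp [Function.Periodic.qParam]
    rw [h3] at h2
    have h4 : cexp (2 * π * I * (z : ℂ) / ((N : ℝ) : ℂ)) = 𝕢 (N : ℝ) (z : ℂ) := by
      simp [Function.Periodic.qParam]
    rw [h4] at h2
    rw [mul_comm]
    exact h2
  have hcomp := (hF.hasDerivAt.comp (z : ℂ) hqd).deriv
  unfold normalizedDerivOfComplex
  rw [hfun, hcomp]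
  have hpi : (2 * π * I : ℂ) ≠ 0 := by
    simp [Real.pi_ne_zero]
  field_simp

/-- the function `q ↦ N⁻¹ q G'(q)` attached to `a` -/
def FA_S20_G (a : FA_S24_HolPlus N) : ℂ → ℂ :=
  fun q => (N : ℂ)⁻¹ * (q * deriv (cuspFunction (N : ℝ) (a : ℍ → ℂ)) q)

theorem FA_S20_D_eq_G (a : FA_S24_HolPlus N) (z : ℍ) :
    D (a : ℍ → ℂ) z = FA_S20_G a (𝕢 (N : ℝ) z) := FA_S20_D_eq_q_mul_deriv a z

theorem FA_S20_D_tendsto_zero (a : FA_S24_HolPlus N) :
    Tendsto (D (a : ℍ → ℂ)) atImInfty (𝓝 0) := by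
  have hN := FA_S24_Npos N
  have han : AnalyticAt ℂ (cuspFunction (N : ℝ) (a : ℍ → ℂ)) 0 := FA_S24_HolPlus_analytic a
  have hcont : ContinuousAt (FA_S20_G a) 0 :=
    continuousAt_const.mul (continuousAt_id.mul han.deriv.continuousAt)
  have h0 : Tendsto (FA_S20_G a) (𝓝 0) (𝓝 0) := by
    have := hcont.tendsto
    simpa [FA_S20_G] using this
  have h1 := h0.comp (qParam_tendsto_atImInfty hN)
  refine h1.congr fun z => ?_
  exact (FA_S20_D_eq_G a z).symm

theorem FA_S20_qParam_add (w : ℂ) : 𝕢 (N : ℝ) (w + ((N : ℝ) : ℂ)) = 𝕢 (N : ℝ) w := by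
  have hNC : ((N : ℝ) : ℂ) ≠ 0 := by
    have := NeZero.ne N
    exact_mod_cast this
  simp only [Function.Periodic.qParam]
  have : 2 * π * I * (w + ((N : ℝ) : ℂ)) / ((N : ℝ) : ℂ)
      = 2 * π * I * w / ((N : ℝ) : ℂ) + 2 * π * I := by
    field_simp
  rw [this, Complex.exp_add, Complex.exp_two_pi_mul_I, mul_one]

theorem FA_S20_D_periodic (a : FA_S24_HolPlus N) :
    Function.Periodic ((D (a : ℍ → ℂ)) ∘ ofComplex) (N : ℝ) := by
  intro w
  by_cases hw : 0 < w.im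
  · have hw' : 0 < (w + ((N : ℝ) : ℂ)).im := by simpa using hw
    simp only [Function.comp_apply, ofComplex_apply_of_im_pos hw', ofComplex_apply_of_im_pos hw]
    rw [FA_S20_D_eq_G, FA_S20_D_eq_G]
    congr 1
    exact FA_S20_qParam_add w
  · have hw' : ¬ 0 < (w + ((N : ℝ) : ℂ)).im := by simpa using hw
    simp only [Function.comp_apply]
    rw [ofComplex_apply_of_im_nonpos (not_lt.mp hw'), ofComplex_apply_of_im_nonpos (not_lt.mp hw)]

/-- `D a` as an element of `𝓗⁺_N` -/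
def FA_S20_DPlus (a : FA_S24_HolPlus N) : FA_S24_HolPlus N :=
  ⟨D (a : ℍ → ℂ), normalizedDerivOfComplex_mdifferentiable (FA_S24_HolPlus_mdiff a),
    FA_S20_D_periodic a, (FA_S20_D_tendsto_zero a).isBigO_one ℝ⟩

theorem FA_S20_toHol_DPlus (a : FA_S24_HolPlus N) :
    FA_S24_toHol N (FA_S20_DPlus a) = FA_Mero_DHol (FA_S24_toHol N a) := rfl

/-! ## the local parameter -/

theorem FA_S20_u_mdiff : MDiff (fun z : ℍ => 𝕢 (N : ℝ) (z : ℂ)) := by
  rw [UpperHalfPlane.mdifferentiable_iff]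
  have h1 : DifferentiableOn ℂ (𝕢 (N : ℝ)) {z : ℂ | 0 < z.im} := by
    apply Differentiable.differentiableOn
    unfold Function.Periodic.qParam
    fun_prop
  refine h1.congr fun w hw => ?_
  simp only [Function.comp_apply]
  rw [ofComplex_apply_of_im_pos hw]

theorem FA_S20_u_periodic :
    Function.Periodic ((fun z : ℍ => 𝕢 (N : ℝ) (z : ℂ)) ∘ ofComplex) (N : ℝ) := by
  intro w
  by_cases hw : 0 < w.im
  · have hw' : 0 < (w + ((N : ℝ) : ℂ)).im := by simpa using hw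
    simp only [Function.comp_apply, ofComplex_apply_of_im_pos hw', ofComplex_apply_of_im_pos hw]
    exact FA_S20_qParam_add w
  · have hw' : ¬ 0 < (w + ((N : ℝ) : ℂ)).im := by simpa using hw
    simp only [Function.comp_apply]
    rw [ofComplex_apply_of_im_nonpos (not_lt.mp hw'), ofComplex_apply_of_im_nonpos (not_lt.mp hw)]

variable (N) in
/-- the local parameter `u = exp(2πi z/N)` at `∞` -/
def FA_S20_u : FA_S24_HolPlus N :=
  ⟨fun z : ℍ => 𝕢 (N : ℝ) (z : ℂ), FA_S20_u_mdiff, FA_S20_u_periodic,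
    (qParam_tendsto_atImInfty (FA_S24_Npos N)).isBigO_one ℝ⟩

theorem FA_S20_u_apply (z : ℍ) : (FA_S20_u N : ℍ → ℂ) z = 𝕢 (N : ℝ) (z : ℂ) := rfl

theorem FA_S20_u_ne_zero (z : ℍ) : (FA_S20_u N : ℍ → ℂ) z ≠ 0 :=
  Function.Periodic.qParam_ne_zero _

theorem FA_S20_qN_u : FA_S24_qN N (FA_S20_u N) = PowerSeries.X := by
  ext m
  have h := FA_S24_QE_coeff_unique (FA_S20_u N : ℍ → ℂ)
    (c := fun m => if m = 1 then (1 : ℂ) else 0) (FA_S24_Npos N)
    (FA_S24_HolPlus_analytic (FA_S20_u N))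
    (fun τ => by
      have := hasSum_ite_eq (1 : ℕ) (𝕢 (N : ℝ) (τ : ℂ))
      refine this.congr_fun fun m => ?_
      by_cases hm : m = 1
      · subst hm
        simp
      · simp [hm]) m
  rw [FA_S24_qN_apply, ← h, PowerSeries.coeff_X]

theorem FA_S20_u_pow_apply (n : ℕ) (z : ℍ) :
    ((FA_S20_u N ^ n : FA_S24_HolPlus N) : ℍ → ℂ) z = (𝕢 (N : ℝ) (z : ℂ)) ^ n := by
  rw [Subalgebra.coe_pow, Pi.pow_apply, FA_S20_u_apply]

theorem FA_S20_order_qN_u_pow (n : ℕ) : (FA_S24_qN N (FA_S20_u N ^ n)).order = n := by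
  rw [map_pow, FA_S20_qN_u, PowerSeries.order_X_pow]

/-- `D u = N⁻¹ u` -/
theorem FA_S20_DPlus_u : FA_S20_DPlus (FA_S20_u N) = (N : ℂ)⁻¹ • FA_S20_u N := by
  apply Subtype.ext
  funext z
  show D (FA_S20_u N : ℍ → ℂ) z = (N : ℂ)⁻¹ * 𝕢 (N : ℝ) (z : ℂ)
  have hNC : (N : ℂ) ≠ 0 := by exact_mod_cast (NeZero.ne N)
  have hqd : HasDerivAt (𝕢 (N : ℝ)) (2 * π * I / (N : ℂ) * 𝕢 (N : ℝ) (z : ℂ)) (z : ℂ) := by
    have h1 : HasDerivAt (fun w : ℂ => 2 * π * I * w / ((N : ℝ) : ℂ)) (2 * π * I / (N : ℂ))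
        (z : ℂ) := by
      have := ((hasDerivAt_id (z : ℂ)).const_mul (2 * π * I)).div_const ((N : ℝ) : ℂ)
      simpa using this
    have h2 := h1.cexp
    have h3 : (fun w : ℂ => cexp (2 * π * I * w / ((N : ℝ) : ℂ))) = 𝕢 (N : ℝ) := by
      funext w
      simp [Function.Periodic.qParam]
    rw [h3] at h2
    have h4 : cexp (2 * π * I * (z : ℂ) / ((N : ℝ) : ℂ)) = 𝕢 (N : ℝ) (z : ℂ) := by
      simp [Function.Periodic.qParam]
    rw [h4] at h2
    rw [mul_comm]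
    exact h2
  have heq : ((FA_S20_u N : ℍ → ℂ) ∘ ofComplex) =ᶠ[𝓝 (z : ℂ)] 𝕢 (N : ℝ) := by
    filter_upwards [isOpen_upperHalfPlaneSet.mem_nhds z.im_pos] with w hw
    simp only [Function.comp_apply]
    rw [ofComplex_apply_of_im_pos hw]
    rfl
  unfold normalizedDerivOfComplex
  rw [heq.deriv_eq, hqd.deriv]
  have hpi : (2 * π * I : ℂ) ≠ 0 := by
    simp [Real.pi_ne_zero]
  field_simp

/-! ## divisibility by powers of the local parameter -/

theorem FA_S20_uinv_mdiff : MDiff (fun z : ℍ => (𝕢 (N : ℝ) (z : ℂ))⁻¹) := by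
  rw [UpperHalfPlane.mdifferentiable_iff]
  have h1 : DifferentiableOn ℂ (fun w => (𝕢 (N : ℝ) w)⁻¹) {z : ℂ | 0 < z.im} := by
    intro w _
    apply DifferentiableAt.differentiableWithinAt
    apply DifferentiableAt.inv
    · unfold Function.Periodic.qParam
      fun_prop
    · exact Function.Periodic.qParam_ne_zero _
  refine h1.congr fun w hw => ?_
  simp only [Function.comp_apply]
  rw [ofComplex_apply_of_im_pos hw]

theorem FA_S20_uinv_periodic :
    Function.Periodic ((fun z : ℍ => (𝕢 (N : ℝ) (z : ℂ))⁻¹) ∘ ofComplex) (N : ℝ) := by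
  intro w
  by_cases hw : 0 < w.im
  · have hw' : 0 < (w + ((N : ℝ) : ℂ)).im := by simpa using hw
    simp only [Function.comp_apply, ofComplex_apply_of_im_pos hw', ofComplex_apply_of_im_pos hw]
    rw [FA_S20_qParam_add w]
  · have hw' : ¬ 0 < (w + ((N : ℝ) : ℂ)).im := by simpa using hw
    simp only [Function.comp_apply]
    rw [ofComplex_apply_of_im_nonpos (not_lt.mp hw'), ofComplex_apply_of_im_nonpos (not_lt.mp hw)]

theorem FA_S20_exists_eq_u_pow_mul (a : FA_S24_HolPlus N) (n : ℕ)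
    (hn : (n : ℕ∞) ≤ (FA_S24_qN N a).order) :
    ∃ a₁ : FA_S24_HolPlus N, a = FA_S20_u N ^ n * a₁ := by
  set h : ℍ → ℂ := fun z => (a : ℍ → ℂ) z * ((𝕢 (N : ℝ) (z : ℂ))⁻¹) ^ n with hh
  have hmd : MDiff h := (FA_S24_HolPlus_mdiff a).mul (FA_S20_uinv_mdiff.pow n)
  have hper : Function.Periodic (h ∘ ofComplex) (N : ℝ) := by
    intro w
    have h1 := FA_S24_HolPlus_per a w
    have h2 := FA_S20_uinv_periodic (N := N) w
    simp only [Function.comp_apply] at h1 h2 ⊢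
    simp only [hh]
    rw [h1, h2]
  have hun : FA_S20_u N ^ n ≠ 0 := by
    intro h0
    have := congrArg (fun f : FA_S24_HolPlus N => (f : ℍ → ℂ) UpperHalfPlane.I) h0
    simp only [FA_S20_u_pow_apply, ZeroMemClass.coe_zero, Pi.zero_apply] at this
    exact pow_ne_zero n (Function.Periodic.qParam_ne_zero _) this
  have hbdd : IsBoundedAtImInfty h := by
    refine FA_S24_BDD N a (FA_S20_u N ^ n) h hun (fun z => ?_) ?_
    · simp only [hh, FA_S20_u_pow_apply]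
      have := Function.Periodic.qParam_ne_zero (h := (N : ℝ)) (z : ℂ)
      rw [mul_assoc, ← mul_pow, inv_mul_cancel₀ this, one_pow, mul_one]
    · rw [FA_S20_order_qN_u_pow]
      exact hn
  refine ⟨⟨h, hmd, hper, hbdd⟩, ?_⟩
  apply Subtype.ext
  funext z
  simp only [hh, MulMemClass.coe_mul, Pi.mul_apply, FA_S20_u_pow_apply]
  have := Function.Periodic.qParam_ne_zero (h := (N : ℝ)) (z : ℂ)
  rw [mul_comm ((a : ℍ → ℂ) z), ← mul_assoc, ← mul_pow, mul_inv_cancel₀ this, one_pow, one_mul]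

/-! ## `D` on `𝓗⁺_N` -/

theorem FA_S20_DPlus_mul (a b : FA_S24_HolPlus N) :
    FA_S20_DPlus (a * b) = FA_S20_DPlus a * b + a * FA_S20_DPlus b :=
  Subtype.ext (normalizedDerivOfComplex_mul _ _ (FA_S24_HolPlus_mdiff a) (FA_S24_HolPlus_mdiff b))

theorem FA_S20_DPlus_one : FA_S20_DPlus (1 : FA_S24_HolPlus N) = 0 :=
  Subtype.ext (normalizedDerivOfComplex_const 1)

theorem FA_S20_DPlus_u_pow (n : ℕ) :
    FA_S20_DPlus (FA_S20_u N ^ n) = ((n : ℂ) * (N : ℂ)⁻¹) • FA_S20_u N ^ n := by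
  induction n with
  | zero => simp [FA_S20_DPlus_one]
  | succ n ih =>
    rw [pow_succ, FA_S20_DPlus_mul, ih, FA_S20_DPlus_u]
    push_cast
    rw [smul_mul_assoc, mul_smul_comm, ← add_smul]
    ring_nf

theorem FA_S20_exists_DPlus_eq_u_pow_mul (a : FA_S24_HolPlus N) (n : ℕ)
    (hn : (n : ℕ∞) ≤ (FA_S24_qN N a).order) :
    ∃ d : FA_S24_HolPlus N, FA_S20_DPlus a = FA_S20_u N ^ n * d := by
  obtain ⟨a₁, rfl⟩ := FA_S20_exists_eq_u_pow_mul a n hn
  refine ⟨((n : ℂ) * (N : ℂ)⁻¹) • a₁ + FA_S20_DPlus a₁, ?_⟩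
  rw [FA_S20_DPlus_mul, FA_S20_DPlus_u_pow, mul_add, smul_mul_assoc, mul_smul_comm]

theorem FA_S20_le_order_of_eq_u_pow_mul {c d : FA_S24_HolPlus N} {n : ℕ}
    (h : c = FA_S20_u N ^ n * d) : (n : ℕ∞) ≤ (FA_S24_qN N c).order := by
  rw [h, map_mul, PowerSeries.order_mul, FA_S20_order_qN_u_pow]
  exact le_self_add

/-! ## orders at `∞` -/

theorem FA_S20_qN_ne_zero {a : FA_S24_HolPlus N} (ha : a ≠ 0) : FA_S24_qN N a ≠ 0 := fun h0 =>
  ha (FA_S24_qN_injective (by rw [h0, map_zero]))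

theorem FA_S20_order_Qinf_hol {a : FA_S24_HolPlus N} (ha : a ≠ 0) :
    (FA_S24_Qinf N (ι (FA_S24_toHol N a))).order = ((FA_S24_qN N a).order.toNat : ℤ) := by
  rw [FA_S24_Qinf_hol]
  have hq := FA_S20_qN_ne_zero ha
  exact FA_S24_order_ofPowerSeries _ _ (PowerSeries.coeff_order hq)
    (fun m hm => PowerSeries.coeff_of_lt_order_toNat m hm)

theorem FA_S20_toHol_ne_zero {a : FA_S24_HolPlus N} (ha : a ≠ 0) : FA_S24_toHol N a ≠ 0 :=
  fun h0 => ha (FA_S24_toHol_injective (by rw [h0, map_zero]))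

theorem FA_S20_iota_ne_zero {a : FA_S24_HolPlus N} (ha : a ≠ 0) : ι (FA_S24_toHol N a) ≠ 0 :=
  FA_Mero_algebraMap_ne_zero (FA_S20_toHol_ne_zero ha)

theorem FA_S20_order_Qinf_div {a b : FA_S24_HolPlus N} (ha : a ≠ 0) (hb : b ≠ 0) :
    (FA_S24_Qinf N (ι (FA_S24_toHol N a) / ι (FA_S24_toHol N b))).order
      = ((FA_S24_qN N a).order.toNat : ℤ) - ((FA_S24_qN N b).order.toNat : ℤ) := by
  have ha' := FA_S24_hol_mem_good a
  have hb' := FA_S24_hol_mem_good b
  have hane := FA_S24_Qinf_ne_zero ha' (FA_S20_iota_ne_zero ha)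
  have hbne := FA_S24_Qinf_ne_zero hb' (FA_S20_iota_ne_zero hb)
  have hdiv : FA_S24_Qinf N (ι (FA_S24_toHol N a) / ι (FA_S24_toHol N b)) *
      FA_S24_Qinf N (ι (FA_S24_toHol N b)) = FA_S24_Qinf N (ι (FA_S24_toHol N a)) := by
    rw [← FA_S24_Qinf_mul ((FA_S24_good N).div_mem ha' hb') hb',
      div_mul_cancel₀ _ (FA_S20_iota_ne_zero hb)]
  have hqne : FA_S24_Qinf N (ι (FA_S24_toHol N a) / ι (FA_S24_toHol N b)) ≠ 0 := by
    intro h0
    rw [h0, zero_mul] at hdiv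
    exact hane hdiv.symm
  have := HahnSeries.order_mul hqne hbne
  rw [hdiv, FA_S20_order_Qinf_hol ha, FA_S20_order_Qinf_hol hb] at this
  linarith

/-- every good function is a quotient of elements of `𝓗⁺_N` -/
theorem FA_S20_exists_div {x : FA_Mero_Field} (hx : x ∈ FA_S24_good N) :
    ∃ a b : FA_S24_HolPlus N, b ≠ 0 ∧ x = ι (FA_S24_toHol N a) / ι (FA_S24_toHol N b) := by
  obtain ⟨y, rfl⟩ := hx
  obtain ⟨a, b, hb, rfl⟩ := IsFractionRing.div_surjective (A := FA_S24_HolPlus N) y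
  refine ⟨a, b, nonZeroDivisors.ne_zero hb, ?_⟩
  rw [map_div₀, FA_S24_kappa_algebraMap, FA_S24_kappa_algebraMap]

/-- the derivative of a quotient -/
theorem FA_S20_Der_div (a : FA_S24_HolPlus N) {b : FA_S24_HolPlus N} (hb : b ≠ 0) :
    FA_Mero_Der (ι (FA_S24_toHol N a) / ι (FA_S24_toHol N b))
      = ι (FA_S24_toHol N (FA_S20_DPlus a * b - a * FA_S20_DPlus b)) /
          ι (FA_S24_toHol N (b ^ 2)) := by
  rw [FA_Mero_Der_div _ (FA_S20_toHol_ne_zero hb)]
  simp only [map_sub, map_mul, map_pow, FA_S20_toHol_DPlus]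

/-- **(a)** `Der` preserves the `N`-good functions -/
theorem FA_S20_Der_mem_good (N : ℕ) [NeZero N] {x : FA_Mero_Field} (hx : x ∈ FA_S24_good N) :
    FA_Mero_Der x ∈ FA_S24_good N := by
  obtain ⟨a, b, hb, rfl⟩ := FA_S20_exists_div hx
  rw [FA_S20_Der_div a hb]
  exact (FA_S24_good N).div_mem (FA_S24_hol_mem_good _) (FA_S24_hol_mem_good _)

/-- `Der` does not lower the order at `∞` -/
theorem FA_S20_order_Der_ge (N : ℕ) [NeZero N] {x : FA_Mero_Field} (hx : x ∈ FA_S24_good N) :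
    FA_Mero_Der x = 0 ∨ (FA_S24_Qinf N x).order ≤ (FA_S24_Qinf N (FA_Mero_Der x)).order := by
  obtain ⟨a, b, hb, rfl⟩ := FA_S20_exists_div hx
  rw [FA_S20_Der_div a hb]
  by_cases ha : a = 0
  · left
    subst ha
    have h0 : FA_S20_DPlus (0 : FA_S24_HolPlus N) = 0 := by
      have := FA_S20_DPlus_mul (0 : FA_S24_HolPlus N) 0
      simpa using this
    rw [h0, zero_mul, zero_mul, sub_zero, map_zero, map_zero, zero_div]
  by_cases hc : FA_S20_DPlus a * b - a * FA_S20_DPlus b = 0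
  · left
    rw [hc, map_zero, map_zero, zero_div]
  right
  rw [FA_S20_order_Qinf_div ha hb]
  rw [FA_S20_order_Qinf_div hc (pow_ne_zero 2 hb)]
  -- divisibility
  obtain ⟨a₁, ha₁⟩ := FA_S20_exists_eq_u_pow_mul a (FA_S24_qN N a).order.toNat
    (by rw [PowerSeries.coe_toNat_order (FA_S20_qN_ne_zero ha)])
  obtain ⟨b₁, hb₁⟩ := FA_S20_exists_eq_u_pow_mul b (FA_S24_qN N b).order.toNat
    (by rw [PowerSeries.coe_toNat_order (FA_S20_qN_ne_zero hb)])
  obtain ⟨da, hda⟩ := FA_S20_exists_DPlus_eq_u_pow_mul a (FA_S24_qN N a).order.toNat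
    (by rw [PowerSeries.coe_toNat_order (FA_S20_qN_ne_zero ha)])
  obtain ⟨db, hdb⟩ := FA_S20_exists_DPlus_eq_u_pow_mul b (FA_S24_qN N b).order.toNat
    (by rw [PowerSeries.coe_toNat_order (FA_S20_qN_ne_zero hb)])
  set α := (FA_S24_qN N a).order.toNat with hα
  set β := (FA_S24_qN N b).order.toNat with hβ
  have hceq : FA_S20_DPlus a * b - a * FA_S20_DPlus b
      = FA_S20_u N ^ (α + β) * (da * b₁ - a₁ * db) := by
    rw [hda]
    conv_lhs => rw [hdb]
    conv_lhs => enter [1, 2]; rw [hb₁]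
    conv_lhs => enter [2, 1]; rw [ha₁]
    rw [pow_add]
    ring
  have hcord := FA_S20_le_order_of_eq_u_pow_mul hceq
  have hcord' : α + β ≤ (FA_S24_qN N (FA_S20_DPlus a * b - a * FA_S20_DPlus b)).order.toNat := by
    have := PowerSeries.coe_toNat_order (FA_S20_qN_ne_zero hc)
    rw [← this] at hcord
    exact_mod_cast hcord
  have hb2 : (FA_S24_qN N (b ^ 2)).order.toNat = 2 * β := by
    have h1 : (FA_S24_qN N (b ^ 2)).order = (2 * β : ℕ) := by
      rw [map_pow, pow_two, PowerSeries.order_mul,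
        ← PowerSeries.coe_toNat_order (FA_S20_qN_ne_zero hb)]
      push_cast
      ring
    rw [h1]
    rfl
  rw [hb2]
  push_cast
  have : ((α + β : ℕ) : ℤ) ≤ (((FA_S24_qN N (FA_S20_DPlus a * b - a * FA_S20_DPlus b)).order.toNat : ℕ) : ℤ) := by
    exact_mod_cast hcord'
  push_cast at this
  linarith

/-- **(b)** `Der` does not destroy a positive order at `∞` -/
theorem FA_S20_order_Der_pos (N : ℕ) [NeZero N] {x : FA_Mero_Field} (hx : x ∈ FA_S24_good N)
    (h : 0 < (FA_S24_Qinf N x).order) :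
    FA_Mero_Der x = 0 ∨ 0 < (FA_S24_Qinf N (FA_Mero_Der x)).order := by
  rcases FA_S20_order_Der_ge N hx with h0 | h1
  · exact Or.inl h0
  · exact Or.inr (lt_of_lt_of_le h h1)

/-- **(c)** holomorphic + good + positive order at `∞` ⇒ zero at `i∞` -/
theorem FA_S20_isZeroAtImInfty (N : ℕ) [NeZero N] (f : FA_Mero_Hol)
    (hf : algebraMap FA_Mero_Hol FA_Mero_Field f ∈ FA_S24_good N)
    (h : 0 < (FA_S24_Qinf N (algebraMap FA_Mero_Hol FA_Mero_Field f)).order) :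
    UpperHalfPlane.IsZeroAtImInfty (f : ℍ → ℂ) := by
  obtain ⟨a, b, hb, hfab⟩ := FA_S20_exists_div hf
  have hbι := FA_S20_iota_ne_zero hb
  by_cases ha : a = 0
  · subst ha
    rw [map_zero, map_zero, zero_div] at hfab
    have hf0 : f = 0 := FA_Mero_algebraMap_injective (by rw [hfab, map_zero])
    rw [hf0]
    exact Filter.zero_zeroAtFilter _
  rw [hfab, FA_S20_order_Qinf_div ha hb] at h
  -- `f * b = a`
  have hmul : f * FA_S24_toHol N b = FA_S24_toHol N a := by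
    apply FA_Mero_algebraMap_injective
    rw [map_mul, hfab, div_mul_cancel₀ _ hbι]
  have hpt : ∀ z : ℍ, (f : ℍ → ℂ) z * (b : ℍ → ℂ) z = (a : ℍ → ℂ) z := by
    intro z
    have := congrArg (fun g : FA_Mero_Hol => (g : ℍ → ℂ) z) hmul
    exact this
  have hbu : b * FA_S20_u N ≠ 0 := by
    refine mul_ne_zero hb ?_
    have := FA_S20_order_qN_u_pow (N := N) 1
    intro h0
    rw [pow_one, h0, map_zero, PowerSeries.order_zero] at this
    exact absurd this (by simp)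
  have hbdd : IsBoundedAtImInfty (fun z : ℍ => (f : ℍ → ℂ) z * (𝕢 (N : ℝ) (z : ℂ))⁻¹) := by
    refine FA_S24_BDD N a (b * FA_S20_u N) _ hbu (fun z => ?_) ?_
    · have := Function.Periodic.qParam_ne_zero (h := (N : ℝ)) (z : ℂ)
      simp only [MulMemClass.coe_mul, Pi.mul_apply, FA_S20_u_apply]
      rw [← hpt z]
      field_simp
    · rw [map_mul, PowerSeries.order_mul, FA_S20_qN_u, PowerSeries.order_X,
        ← PowerSeries.coe_toNat_order (FA_S20_qN_ne_zero ha),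
        ← PowerSeries.coe_toNat_order (FA_S20_qN_ne_zero hb)]
      have : (FA_S24_qN N b).order.toNat + 1 ≤ (FA_S24_qN N a).order.toNat := by omega
      exact_mod_cast this
  have hz : ZeroAtFilter atImInfty (fun τ : ℍ => 𝕢 (N : ℝ) τ) :=
    qParam_tendsto_atImInfty (FA_S24_Npos N)
  have hprod := hz.mul_boundedAtFilter hbdd
  refine Tendsto.congr (fun z => ?_) hprod
  have := Function.Periodic.qParam_ne_zero (h := (N : ℝ)) (z : ℂ)
  simp only [Pi.mul_apply]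
  field_simp

end Fermat.Agent.S20
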