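import Fermat.Agent.S20.Cusp
import Fermat.Agent.S20.Bridge

/-!
# Item 78: the leaf `Cusp` in the form consumed by the bridge
-/

set_option autoImplicit false

namespace Fermat.Agent.S20

theorem FA_S20_cuspTarget (N : ℕ) [NeZero N] : FA_S20_Target_Cusp N :=
  ⟨fun _ hx => FA_S20_Der_mem_good N hx, fun _ hx h => FA_S20_order_Der_pos N hx h,
    fun f hf h => FA_S20_isZeroAtImInfty N f hf h⟩

end Fermat.Agent.S20
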