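import Fermat.Agent.S20.Bridge
import Fermat.Agent.S20.Cusp
import Fermat.Agent.S24.DGeneric
import Fermat.Agent.S24.DInst3
import Fermat.Agent.S24.ADegree
import Fermat.Agent.Lib.RR.Assembly
import Fermat.Agent.S21.Final

/-!
# Item 78 (S20 bridge), final assembly

`genusFormula N ≤ dim S₂(Γ₀(N))`, from the residue target of the Riemann–Roch library for the
function field `F₀ = ℂ(j (d z) : d ∣ N)`.
-/

set_option autoImplicit false
set_option linter.style.haveILetI false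

noncomputable section

open UpperHalfPlane hiding I
open Complex WithZero Filter AlgebraicCurve KaehlerDifferential
open scoped MatrixGroups Manifold Topology Real ModularForm

namespace Fermat.Agent.S20

open Fermat.Agent.Mero Fermat.Agent.S24

local notation "ι" => algebraMap FA_Mero_Hol FA_Mero_Field

/-- The leaf `Cusp` (helper8). -/
theorem FA_S20_cusp_target (N : ℕ) [NeZero N] : FA_S20_Target_Cusp N :=
  ⟨fun _ hx => FA_S20_Der_mem_good N hx, fun _ hx h => FA_S20_order_Der_pos N hx h,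
    fun f hf h => FA_S20_isZeroAtImInfty N f hf h⟩

/-- `F₀ = ℂ(j (d z) : d ∣ N)` is a function field (`N ≥ 2`). -/
theorem FA_S20_isFF (N : ℕ) [NeZero N] (hN : 2 ≤ N) :
    FA_RR_IsFF ℂ ↥(FA_S24_F0 ℂ FA_S24_g N) := by
  have hP := FA_S24_props_final ℂ FA_S24_tower_complex N
  have hM : FA_S24_ModelFor ℂ ↥(FA_S24_F0 ℂ FA_S24_g N) N :=
    hP.modelFor hN ↥(FA_S24_F0 ℂ FA_S24_g N) (FA_S24_F0 ℂ FA_S24_g N).val (by
      ext x
      constructor
      · rintro ⟨y, rfl⟩
        exact y.2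
      · intro hx
        exact ⟨⟨x, hx⟩, rfl⟩)
  obtain ⟨E, _, _, _, _, φ, x, hfin, hx, hxΓ, hfixΓ, hker, hH, hfixH, -, -⟩ := hM
  exact (FA_S24_A_degree ℂ ↥(FA_S24_F0 ℂ FA_S24_g N) E SL(2, ℤ) φ hfin x hx
    hxΓ hfixΓ (CongruenceSubgroup.Gamma0 N) hker hH hfixH).1

/-- **Item 78**: the lower bound `genusFormula N ≤ dim S₂(Γ₀(N))`, from the residue target. -/
theorem FA_S20_ge_of_residues (N : ℕ) [NeZero N]
    (hres : FA_RR_Target_residues ℂ ↥(FA_S24_F0 ℂ FA_S24_g N)) :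
    ModularCurve.genusFormula N
      ≤ (Module.finrank ℂ (CuspForm (CongruenceSubgroup.Gamma0 N) 2) : ℚ) := by
  rcases Nat.lt_or_ge N 2 with hN | hN
  · have hN1 : N = 1 := by
      have := NeZero.ne N
      omega
    subst hN1
    rw [FA_S24_genusFormula_one]
    exact Nat.cast_nonneg _
  have hF := FA_S20_isFF N hN
  haveI := FA_RR.WPE.hasCanonicalDivisor hF hres
  have hgenus := FA_S24_genus_F0 ℂ FA_S24_tower_complex N
  rw [FA_RR.WPE.genus_eq_genusFF hF hres] at hgenus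
  obtain ⟨R, hR, hRdim⟩ := FA_RR.WPE.exists_regular_submodule hF hres
  haveI := FA_S21.FA_S21_cuspForm_finiteDimensional N
  have hP := FA_S24_props_final ℂ FA_S24_tower_complex N
  have hbridge := FA_S20_bridge N ↥(FA_S24_F0 ℂ FA_S24_g N) hF
    ⟨⟨FA_S24_g 1, FA_S24_g_mem_F0 ℂ FA_S24_g N (one_dvd N)⟩, FA_S24_g_one⟩
    (by
      rw [← FA_S24_g_one, FA_S24_order_Qinf_g_one FA_S24_QE N]
      have : (0 : ℤ) < N := by exact_mod_cast Nat.pos_of_ne_zero (NeZero.ne N)
      omega)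
    (fun γ hγ a => hP.fix_F0 γ hγ a.2)
    (fun γ a => FA_S24_E_le_good FA_S24_UT FA_S24_QE ℂ FA_S24_tower_complex N
      (FA_S24_map_mem_E (FA_S24_rho ℂ FA_S24_tower_complex) FA_S24_g N γ
        (FA_S24_F0_le_E (FA_S24_rho ℂ FA_S24_tower_complex) FA_S24_g N a.2)))
    (FA_S20_cusp_target N) R (by rw [hR])
  rw [← hgenus, ← hRdim]
  exact_mod_cast hbridge

end Fermat.Agent.S20
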